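import Mathlib

/-!
# All-pairs Eisenstein series of level `Γ(M)` (brick C1.SEP of S48)

`G k a z = ∑ (v ∈ ℤ², v ≡ a mod M) (v₀ z + v₁)^(-k)` (no coprimality condition; the term
`v = 0` vanishes by Lean's convention `0 ^ (-k) = 0`).  Everything is mirrored from Mathlib's
`EisensteinSeries` files (which sum over coprime pairs).
-/

set_option autoImplicit false

namespace Fermat.Agent.S48.EisSep

open UpperHalfPlane ModularForm EisensteinSeries Matrix CongruenceSubgroup Filter Topology Complex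
  SlashInvariantForm Set
open scoped MatrixGroups Manifold Real

noncomputable section

variable {M : ℕ}

/-- Integer vectors congruent to `a` modulo `M`. -/
def cSet (a : Fin 2 → ZMod M) : Set (Fin 2 → ℤ) := {v | ((↑) : ℤ → ZMod M) ∘ v = a}

lemma mem_cSet {a : Fin 2 → ZMod M} {v : Fin 2 → ℤ} :
    v ∈ cSet a ↔ ((↑) : ℤ → ZMod M) ∘ v = a := Iff.rfl

lemma vecMul_mem_cSet {a : Fin 2 → ZMod M} {v : Fin 2 → ℤ} (hv : v ∈ cSet a) (γ : SL(2, ℤ)) :
    v ᵥ* γ ∈ cSet (a ᵥ* γ) := by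
  have := RingHom.map_vecMul (m := Fin 2) (n := Fin 2) (Int.castRingHom (ZMod M)) γ v
  simp only [eq_intCast, Int.coe_castRingHom] at this
  have hv' : ((↑) : ℤ → ZMod M) ∘ v = a := hv
  rw [mem_cSet]
  simp_rw [Function.comp_def, this]
  rw [← hv']
  simp [Function.comp_def]

lemma coe_mul_inv_int (γ : SL(2, ℤ)) :
    (γ : Matrix (Fin 2) (Fin 2) ℤ) * ((γ⁻¹ : SL(2, ℤ)) : Matrix (Fin 2) (Fin 2) ℤ) = 1 :=
  congrArg (fun g : SL(2, ℤ) => (g : Matrix (Fin 2) (Fin 2) ℤ)) (mul_inv_cancel γ)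

lemma coe_inv_mul_int (γ : SL(2, ℤ)) :
    ((γ⁻¹ : SL(2, ℤ)) : Matrix (Fin 2) (Fin 2) ℤ) * (γ : Matrix (Fin 2) (Fin 2) ℤ) = 1 :=
  congrArg (fun g : SL(2, ℤ) => (g : Matrix (Fin 2) (Fin 2) ℤ)) (inv_mul_cancel γ)

lemma coe_mul_inv_zmod (γ : SL(2, ℤ)) :
    (γ : Matrix (Fin 2) (Fin 2) (ZMod M)) *
      ((γ⁻¹ : SL(2, ℤ)) : Matrix (Fin 2) (Fin 2) (ZMod M)) = 1 := by
  have h : SpecialLinearGroup.map (Int.castRingHom (ZMod M)) γ *
      SpecialLinearGroup.map (Int.castRingHom (ZMod M)) γ⁻¹ = 1 := by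
    rw [← map_mul, mul_inv_cancel, map_one]
  exact congrArg (fun g : SL(2, ZMod M) => (g : Matrix (Fin 2) (Fin 2) (ZMod M))) h

lemma vecMul_vecMul_inv (a : Fin 2 → ZMod M) (γ : SL(2, ℤ)) :
    (a ᵥ* (γ : Matrix (Fin 2) (Fin 2) (ZMod M))) ᵥ*
      ((γ⁻¹ : SL(2, ℤ)) : Matrix (Fin 2) (Fin 2) (ZMod M)) = a := by
  rw [vecMul_vecMul, coe_mul_inv_zmod, vecMul_one]

/-- Right multiplication by `γ ∈ SL(2, ℤ)` as a bijection of congruence classes. -/
def cSetEquiv (a : Fin 2 → ZMod M) (γ : SL(2, ℤ)) : cSet a ≃ cSet (a ᵥ* γ) where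
  toFun v := ⟨v.1 ᵥ* γ, vecMul_mem_cSet v.2 γ⟩
  invFun v := ⟨v.1 ᵥ* ↑(γ⁻¹), by
      have := vecMul_mem_cSet v.2 γ⁻¹
      rwa [vecMul_vecMul_inv] at this⟩
  left_inv v := Subtype.ext (by
    change (v.1 ᵥ* (γ : Matrix (Fin 2) (Fin 2) ℤ)) ᵥ* ((γ⁻¹ : SL(2, ℤ)) : Matrix (Fin 2) (Fin 2) ℤ)
      = v.1
    rw [vecMul_vecMul, coe_mul_inv_int, vecMul_one])
  right_inv v := Subtype.ext (by
    change (v.1 ᵥ* ((γ⁻¹ : SL(2, ℤ)) : Matrix (Fin 2) (Fin 2) ℤ)) ᵥ* (γ : Matrix (Fin 2) (Fin 2) ℤ)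
      = v.1
    rw [vecMul_vecMul, coe_inv_mul_int, vecMul_one])

/-- The all-pairs Eisenstein series of weight `k` and congruence class `a` mod `M`. -/
def G (k : ℤ) (a : Fin 2 → ZMod M) (z : ℍ) : ℂ := ∑' v : cSet a, eisSummand k v z

lemma G_slash (k : ℤ) (a : Fin 2 → ZMod M) (γ : SL(2, ℤ)) :
    G k a ∣[k] γ = G k (a ᵥ* γ) := by
  ext1 z
  simp_rw [SL_slash_apply, _root_.zpow_neg,
    mul_inv_eq_iff_eq_mul₀ (zpow_ne_zero _ <| denom_ne_zero _ z),
    G, eisSummand_SL2_apply, tsum_mul_left, mul_comm (_ ^ k)]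
  congr 1
  exact (cSetEquiv a γ).tsum_eq (eisSummand k · z)

lemma summable_norm_G {k : ℤ} (hk : 3 ≤ k) (a : Fin 2 → ZMod M) (z : ℍ) :
    Summable fun v : cSet a => ‖eisSummand k v z‖ :=
  (summable_norm_eisSummand hk z).subtype _

lemma summable_G {k : ℤ} (hk : 3 ≤ k) (a : Fin 2 → ZMod M) (z : ℍ) :
    Summable fun v : cSet a => eisSummand k v z :=
  (summable_norm_G hk a z).of_norm

/-- The slash invariant form of level `Γ(M)` given by `G k a`. -/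
def GSIF (k : ℤ) (a : Fin 2 → ZMod M) : SlashInvariantForm (Gamma M) k where
  toFun := G k a
  slash_action_eq' A hA := by
    obtain ⟨A, (hA : A ∈ Γ(M)), rfl⟩ := hA
    simp [SpecialLinearGroup.mapGL, ← SL_slash, G_slash, Gamma_mem'.mp hA]

lemma GSIF_apply (k : ℤ) (a : Fin 2 → ZMod M) (z : ℍ) : GSIF k a z = G k a z := rfl

theorem G_tendstoLocallyUniformly {k : ℤ} (hk : 3 ≤ k) (a : Fin 2 → ZMod M) :
    TendstoLocallyUniformly (fun (s : Finset (cSet a)) ↦ (∑ x ∈ s, eisSummand k x ·))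
      (G k a ·) Filter.atTop := by
  have hk' : (2 : ℝ) < k := by norm_cast
  have p_sum : Summable fun x : cSet a ↦ ‖x.val‖ ^ (-k) :=
    mod_cast (summable_one_div_norm_rpow hk').subtype (· ∈ cSet a)
  simp only [tendstoLocallyUniformly_iff_forall_isCompact, G]
  intro K hK
  obtain ⟨A, B, hB, HABK⟩ := subset_verticalStrip_of_isCompact hK
  refine (tendstoUniformlyOn_tsum (hu := p_sum.mul_left <| r ⟨⟨A, B⟩, hB⟩ ^ (-k : ℝ))
    (fun p z hz ↦ ?_)).mono HABK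
  simpa only [eisSummand, one_div, ← _root_.zpow_neg, norm_zpow, ← Real.rpow_intCast,
    Int.cast_neg] using summand_bound_of_mem_verticalStrip (by positivity) p hB hz

lemma G_tendstoLocallyUniformlyOn {k : ℤ} (hk : 3 ≤ k) (a : Fin 2 → ZMod M) :
    TendstoLocallyUniformlyOn (fun (s : Finset (cSet a)) ↦
      ↑ₕ(fun (z : ℍ) ↦ ∑ x ∈ s, eisSummand k x z)) (↑ₕ(G k a))
          Filter.atTop {z : ℂ | 0 < z.im} := by
  rw [← upperHalfPlaneSet, ← range_coe, ← image_univ]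
  apply TendstoLocallyUniformlyOn.comp (s := ⊤) _ _ _ (OpenPartialHomeomorph.continuousOn_symm _)
  · simp only [Set.top_eq_univ, tendstoLocallyUniformlyOn_univ]
    apply G_tendstoLocallyUniformly hk
  · simp only [IsOpenEmbedding.toOpenPartialHomeomorph_target, Set.top_eq_univ, mapsTo_range_iff,
    Set.mem_univ, forall_const]

theorem G_mdifferentiable {k : ℤ} (hk : 3 ≤ k) (a : Fin 2 → ZMod M) : MDiff (G k a) := by
  intro τ
  suffices DifferentiableAt ℂ (↑ₕ(G k a)) τ.1 by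
    convert!
      MDifferentiableAt.comp τ (DifferentiableAt.mdifferentiableAt this) τ.mdifferentiable_coe
    exact funext fun z ↦ (comp_ofComplex (G k a) z).symm
  refine DifferentiableOn.differentiableAt ?_ (isOpen_upperHalfPlaneSet.mem_nhds τ.2)
  exact (G_tendstoLocallyUniformlyOn hk a).differentiableOn
    (Eventually.of_forall fun s ↦ DifferentiableOn.fun_sum
    fun _ _ ↦ eisSummand_extension_differentiableOn _ _) isOpen_upperHalfPlaneSet

lemma norm_G_le_tsum_norm (a : Fin 2 → ZMod M) (k : ℤ) (hk : 3 ≤ k) (z : ℍ) :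
    ‖G k a z‖ ≤ ∑' (x : Fin 2 → ℤ), ‖eisSummand k x z‖ := by
  simp_rw [G]
  apply le_trans (norm_tsum_le_tsum_norm ((summable_norm_eisSummand hk z).subtype _))
    (Summable.tsum_subtype_le (fun (x : Fin 2 → ℤ) ↦ ‖(eisSummand k x z)‖) _ (fun _ ↦ norm_nonneg _)
      (summable_norm_eisSummand hk z))

theorem isBoundedAtImInfty_G_slash [NeZero M] (a : Fin 2 → ZMod M) {k : ℤ}
    (hk : 3 ≤ k) (A : SL(2, ℤ)) : IsBoundedAtImInfty (G k a ∣[k] A) := by
  simp_rw [UpperHalfPlane.isBoundedAtImInfty_iff] at *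
  refine ⟨∑'(x : Fin 2 → ℤ), r ⟨⟨M, 2⟩, Nat.ofNat_pos⟩ ^ (-k) * ‖x‖ ^ (-k), 2, ?_⟩
  intro z hz
  obtain ⟨n, hn⟩ := (ModularGroup_T_zpow_mem_verticalStrip z (NeZero.pos M))
  rw [G_slash, ← GSIF_apply, ← T_zpow_width_invariant M k n (GSIF k (a ᵥ* A)) z]
  apply le_trans (norm_G_le_tsum_norm (a ᵥ* A) k hk _)
  have hk' : (2 : ℝ) < k := by norm_cast
  apply (summable_norm_eisSummand hk _).tsum_le_tsum _
  · exact_mod_cast (summable_one_div_norm_rpow hk').mul_left <| r ⟨⟨M, 2⟩, Nat.ofNat_pos⟩ ^ (-k)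
  · intro x
    simp_rw [eisSummand, norm_zpow]
    exact_mod_cast
      summand_bound_of_mem_verticalStrip (lt_trans two_pos hk').le x two_pos
      (verticalStrip_anti_right M hz hn)

/-- `G k a` as a modular form of level `Γ(M)`. -/
def GMF [NeZero M] {k : ℤ} (hk : 3 ≤ k) (a : Fin 2 → ZMod M) : ModularForm Γ(M) k where
  toFun := GSIF k a
  slash_action_eq' := (GSIF k a).slash_action_eq'
  holo' := G_mdifferentiable hk a
  bdd_at_cusps' {c} hc := by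
    rw [Subgroup.IsArithmetic.isCusp_iff_isCusp_SL2Z] at hc
    rw [OnePoint.isBoundedAt_iff_forall_SL2Z hc]
    exact fun γ _ ↦ isBoundedAtImInfty_G_slash a hk γ

lemma GMF_apply [NeZero M] {k : ℤ} (hk : 3 ≤ k) (a : Fin 2 → ZMod M) (z : ℍ) :
    GMF hk a z = G k a z := rfl

end

end Fermat.Agent.S48.EisSep
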