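import Fermat.Agent.S48.EisSep.Defs

/-!
# Limits at `i∞` of the all-pairs Eisenstein series of weight 4, and the separation property
-/

set_option autoImplicit false

namespace Fermat.Agent.S48.EisSep

open UpperHalfPlane ModularForm EisensteinSeries Matrix CongruenceSubgroup Filter Topology Complex
  SlashInvariantForm Set
open scoped MatrixGroups Manifold Real

noncomputable section

variable {M : ℕ}

/-- The real number `∑ (n ≡ d mod M, n ≠ 0) n⁻⁴`. -/
def ZR (d : ZMod M) : ℝ := ∑' n : ℤ, if (n : ZMod M) = d then ((n : ℝ) ^ 4)⁻¹ else 0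

lemma eisSummand_four (v : Fin 2 → ℤ) (z : ℍ) :
    eisSummand 4 v z = (((v 0 : ℂ) * z + v 1) ^ 4)⁻¹ := by
  simp only [eisSummand]
  rw [_root_.zpow_neg]
  norm_cast

/-- Termwise limit of the summands. -/
lemma tendsto_eisSummand_four (v : Fin 2 → ℤ) :
    Tendsto (fun z : ℍ => eisSummand 4 v z) atImInfty
      (𝓝 (if v 0 = 0 then (((v 1 : ℝ) ^ 4)⁻¹ : ℝ) else 0)) := by
  split_ifs with h0
  · have : (fun z : ℍ => eisSummand 4 v z) = fun _ => ((((v 1 : ℝ) ^ 4)⁻¹ : ℝ) : ℂ) := by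
      funext z
      rw [eisSummand_four, h0]
      push_cast
      simp
    rw [this]
    exact tendsto_const_nhds
  · rw [tendsto_zero_iff_norm_tendsto_zero]
    have hlim : Tendsto (fun z : ℍ => (z.im ^ 4)⁻¹) atImInfty (𝓝 0) := by
      have h1 : Tendsto (fun z : ℍ => z.im) atImInfty atTop := tendsto_comap
      have h2 : Tendsto (fun x : ℝ => (x ^ 4)⁻¹) atTop (𝓝 0) :=
        tendsto_inv_atTop_zero.comp (tendsto_pow_atTop (by norm_num))
      exact h2.comp h1
    refine tendsto_of_tendsto_of_tendsto_of_le_of_le tendsto_const_nhds hlim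
      (fun z => norm_nonneg _) (fun z => ?_)
    rw [eisSummand_four, norm_inv, norm_pow]
    have him : z.im ≤ ‖(v 0 : ℂ) * z + v 1‖ := by
      have h1 : |((v 0 : ℂ) * z + v 1).im| ≤ ‖(v 0 : ℂ) * z + v 1‖ := Complex.abs_im_le_norm _
      have h2 : ((v 0 : ℂ) * z + v 1).im = (v 0 : ℝ) * z.im := by simp
      rw [h2, abs_mul, abs_of_pos z.im_pos] at h1
      have h3 : (1 : ℝ) ≤ |(v 0 : ℝ)| := by
        have : (1 : ℤ) ≤ |v 0| := Int.one_le_abs h0
        exact_mod_cast this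
      nlinarith [z.im_pos]
    have hpos : 0 < z.im ^ 4 := pow_pos z.im_pos 4
    exact inv_anti₀ hpos (pow_le_pow_left₀ z.im_pos.le him 4)

lemma norm_eisSummand_le_of_mem_verticalStrip {k : ℤ} (hk : 3 ≤ k) (v : Fin 2 → ℤ) {A B : ℝ}
    (hB : 0 < B) {z : ℍ} (hz : z ∈ verticalStrip A B) :
    ‖eisSummand k v z‖ ≤ r ⟨⟨A, B⟩, hB⟩ ^ (-k : ℝ) * ‖v‖ ^ (-k) := by
  have hk' : (0 : ℝ) ≤ k := by exact_mod_cast (by omega : (0 : ℤ) ≤ k)
  simpa only [eisSummand, one_div, ← _root_.zpow_neg, norm_zpow, ← Real.rpow_intCast,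
    Int.cast_neg] using summand_bound_of_mem_verticalStrip hk' v hB hz

/-- The limit along the vertical strip of width `M`. -/
lemma tendsto_G_strip (a : Fin 2 → ZMod M) :
    Tendsto (G 4 a) (atImInfty ⊓ 𝓟 (verticalStrip M 1))
      (𝓝 (∑' v : cSet a, ((if v.1 0 = 0 then (((v.1 1 : ℝ) ^ 4)⁻¹ : ℝ) else 0 : ℝ) : ℂ))) := by
  have hk' : (2 : ℝ) < ((4 : ℤ) : ℝ) := by norm_num
  have p_sum : Summable fun x : cSet a ↦ ‖x.val‖ ^ (-(4 : ℤ)) :=
    mod_cast (summable_one_div_norm_rpow hk').subtype (· ∈ cSet a)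
  refine tendsto_tsum_of_dominated_convergence
    (p_sum.mul_left <| r ⟨⟨M, 1⟩, one_pos⟩ ^ (-((4 : ℤ) : ℝ))) (fun v => ?_) ?_
  · have := (tendsto_eisSummand_four v.1).mono_left
      (inf_le_left : atImInfty ⊓ 𝓟 (verticalStrip M 1) ≤ atImInfty)
    convert this using 2
    split_ifs <;> simp
  · have hmem : ∀ᶠ z in atImInfty ⊓ 𝓟 (verticalStrip M 1), z ∈ verticalStrip M 1 :=
      eventually_inf_principal.mpr (Eventually.of_forall fun z hz => hz)
    filter_upwards [hmem] with z hz v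
    exact norm_eisSummand_le_of_mem_verticalStrip (by norm_num) v.1 one_pos hz

/-- The limit at `i∞`, as a sum over the congruence class. -/
lemma tendsto_G_atImInfty_aux [NeZero M] (a : Fin 2 → ZMod M) :
    Tendsto (G 4 a) atImInfty
      (𝓝 (∑' v : cSet a, ((if v.1 0 = 0 then (((v.1 1 : ℝ) ^ 4)⁻¹ : ℝ) else 0 : ℝ) : ℂ))) := by
  have hex : ∀ z : ℍ, ∃ n : ℤ, ModularGroup.T ^ ((M : ℤ) * n) • z ∈ verticalStrip M z.im :=
    fun z => ModularGroup_T_zpow_mem_verticalStrip z (NeZero.pos M)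
  choose n hn using hex
  set φ : ℍ → ℍ := fun z => ModularGroup.T ^ ((M : ℤ) * n z) • z with hφdef
  have hφ : Tendsto φ atImInfty (atImInfty ⊓ 𝓟 (verticalStrip M 1)) := by
    rw [tendsto_inf]
    constructor
    · rw [atImInfty, tendsto_comap_iff]
      exact tendsto_atTop_mono (fun z => (hn z).2) tendsto_comap
    · rw [tendsto_principal]
      have h0 : Tendsto (fun z : ℍ => z.im) atImInfty atTop := tendsto_comap
      have h1 : ∀ᶠ z : ℍ in atImInfty, (1 : ℝ) ≤ z.im := h0.eventually_ge_atTop 1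
      filter_upwards [h1] with z hz
      exact verticalStrip_anti_right M hz (hn z)
  have hG : G 4 a = G 4 a ∘ φ := by
    funext z
    exact (T_zpow_width_invariant M 4 (n z) (GSIF 4 a) z).symm
  rw [hG]
  exact (tendsto_G_strip a).comp hφ

/-- Evaluation of the limit sum. -/
lemma tsum_limit_eq (a : Fin 2 → ZMod M) :
    (∑' v : cSet a, ((if v.1 0 = 0 then (((v.1 1 : ℝ) ^ 4)⁻¹ : ℝ) else 0 : ℝ) : ℂ))
      = if a 0 = 0 then ((ZR (a 1) : ℝ) : ℂ) else 0 := by
  rw [← Complex.ofReal_tsum]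
  have key : (∑' v : cSet a, (if v.1 0 = 0 then (((v.1 1 : ℝ) ^ 4)⁻¹ : ℝ) else 0 : ℝ))
      = if a 0 = 0 then ZR (a 1) else 0 := by
    rw [tsum_subtype (cSet a) (fun v : Fin 2 → ℤ => (if v 0 = 0 then (((v 1 : ℝ) ^ 4)⁻¹ : ℝ) else 0))]
    have hinj : Function.Injective (fun n : ℤ => (![0, n] : Fin 2 → ℤ)) := by
      intro m n h
      simpa using congrFun h 1
    rw [← hinj.tsum_eq]
    · split_ifs with h0
      · rw [ZR]
        refine tsum_congr fun n => ?_
        by_cases hn : (n : ZMod M) = a 1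
        · have hmem : (![0, n] : Fin 2 → ℤ) ∈ cSet a := by
            rw [mem_cSet]
            funext i
            fin_cases i
            · simp [h0]
            · simpa using hn
          rw [Set.indicator_of_mem hmem, if_pos hn]
          simp
        · have hmem : (![0, n] : Fin 2 → ℤ) ∉ cSet a := by
            rw [mem_cSet]
            intro h
            exact hn (by simpa using congrFun h 1)
          rw [Set.indicator_of_notMem hmem, if_neg hn]
      · rw [← tsum_zero (α := ℝ) (β := ℤ)]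
        refine tsum_congr fun n => ?_
        have hmem : (![0, n] : Fin 2 → ℤ) ∉ cSet a := by
          rw [mem_cSet]
          intro h
          exact h0 (by simpa using (congrFun h 0).symm)
        rw [Set.indicator_of_notMem hmem]
    · intro v hv
      rw [Function.mem_support] at hv
      have hv1 : v ∈ cSet a := by
        by_contra hc
        exact hv (Set.indicator_of_notMem hc _)
      rw [Set.indicator_of_mem hv1] at hv
      have hv0 : v 0 = 0 := by
        by_contra hc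
        exact hv (if_neg hc)
      refine ⟨v 1, ?_⟩
      funext i
      fin_cases i
      · simpa using hv0.symm
      · simp
  rw [key]
  split_ifs <;> simp

/-- **Limit at `i∞`** of the all-pairs Eisenstein series of weight 4. -/
theorem tendsto_G_atImInfty [NeZero M] (a : Fin 2 → ZMod M) :
    Tendsto (G 4 a) atImInfty (𝓝 (if a 0 = 0 then ((ZR (a 1) : ℝ) : ℂ) else 0)) := by
  rw [← tsum_limit_eq]
  exact tendsto_G_atImInfty_aux a

/-! ### Estimates for the limit values -/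

lemma hasSum_int_inv_pow_four :
    HasSum (fun n : ℤ => ((n : ℝ) ^ 4)⁻¹) (π ^ 4 / 90 + π ^ 4 / 90) := by
  refine HasSum.of_nat_of_neg_add_one ?_ ?_
  · simpa [one_div] using hasSum_zeta_four
  · have h := (hasSum_nat_add_iff' (f := fun n : ℕ => (1 : ℝ) / (n : ℝ) ^ 4) 1).mpr hasSum_zeta_four
    simp only [Finset.range_one, Finset.sum_singleton, Nat.cast_zero, ne_eq, OfNat.ofNat_ne_zero,
      not_false_eq_true, zero_pow, div_zero, sub_zero] at h
    have hfun : (fun n : ℕ => (((-((n : ℤ) + 1) : ℤ) : ℝ) ^ 4)⁻¹)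
        = fun n : ℕ => (1 : ℝ) / ((n + 1 : ℕ) : ℝ) ^ 4 := by
      funext n
      push_cast
      rw [one_div]
      congr 1
      ring
    rw [hfun]
    exact h

lemma summable_int_inv_pow_four : Summable (fun n : ℤ => ((n : ℝ) ^ 4)⁻¹) :=
  hasSum_int_inv_pow_four.summable

lemma summable_ZR (d : ZMod M) :
    Summable (fun n : ℤ => if (n : ZMod M) = d then ((n : ℝ) ^ 4)⁻¹ else 0) := by
  refine Summable.of_nonneg_of_le (fun n => ?_) (fun n => ?_) summable_int_inv_pow_four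
  · split_ifs
    · positivity
    · exact le_rfl
  · split_ifs
    · exact le_rfl
    · positivity

lemma ZR_nonneg (d : ZMod M) : 0 ≤ ZR d :=
  tsum_nonneg fun n => by
    split_ifs
    · positivity
    · exact le_rfl

lemma one_le_ZR_one : 1 ≤ ZR (1 : ZMod M) := by
  have h := (summable_ZR (1 : ZMod M)).le_tsum (1 : ℤ) (fun j _ => by
    split_ifs
    · positivity
    · exact le_rfl)
  simpa [ZR] using h

lemma ZR_neg (d : ZMod M) : ZR (-d) = ZR d := by
  rw [ZR, ZR, ← tsum_comp_neg]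
  refine tsum_congr fun n => ?_
  have h1 : ((-n : ℤ) : ZMod M) = -d ↔ (n : ZMod M) = d := by
    rw [Int.cast_neg, neg_inj]
  have h2 : (((-n : ℤ) : ℝ) ^ 4)⁻¹ = ((n : ℝ) ^ 4)⁻¹ := by
    push_cast
    congr 1
    ring
  simp only [h1, h2]

/-- The sum over `|n| ≥ 2`. -/
lemma hasSum_tail :
    HasSum (fun n : ℤ => ((n : ℝ) ^ 4)⁻¹ - (if n = 1 then (1 : ℝ) else 0) - (if n = -1 then 1 else 0))
      (π ^ 4 / 90 + π ^ 4 / 90 - 1 - 1) :=
  (hasSum_int_inv_pow_four.sub (hasSum_ite_eq (1 : ℤ) (1 : ℝ))).sub (hasSum_ite_eq (-1 : ℤ) (1 : ℝ))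

lemma ZR_le_of_ne {d : ZMod M} (h1 : d ≠ 1) (h2 : d ≠ -1) :
    ZR d ≤ π ^ 4 / 90 + π ^ 4 / 90 - 1 - 1 := by
  rw [← hasSum_tail.tsum_eq]
  refine (summable_ZR d).tsum_le_tsum (fun n => ?_) hasSum_tail.summable
  by_cases hn : (n : ZMod M) = d
  · rw [if_pos hn]
    have hn1 : n ≠ 1 := by
      rintro rfl
      exact h1 (by simpa using hn.symm)
    have hn2 : n ≠ -1 := by
      rintro rfl
      exact h2 (by simpa using hn.symm)
    rw [if_neg hn1, if_neg hn2]
    simp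
  · rw [if_neg hn]
    by_cases hn1 : n = 1
    · subst hn1
      norm_num
    · by_cases hn2 : n = -1
      · subst hn2
        norm_num
      · rw [if_neg hn1, if_neg hn2]
        simp only [sub_zero]
        positivity

lemma tail_lt_one : π ^ 4 / 90 + π ^ 4 / 90 - 1 - 1 < 1 := by
  have h1 : π < 3.15 := Real.pi_lt_d2
  have h0 : 0 < π := Real.pi_pos
  have h2 : π ^ 2 < 9.9225 := by nlinarith
  have h3 : π ^ 4 < 98.5 := by nlinarith [sq_nonneg π]
  linarith

lemma ZR_lt_ZR_one {d : ZMod M} (h1 : d ≠ 1) (h2 : d ≠ -1) : ZR d < ZR (1 : ZMod M) :=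
  lt_of_le_of_lt (ZR_le_of_ne h1 h2) (lt_of_lt_of_le tail_lt_one one_le_ZR_one)

/-! ### The separator `G 4 ![0, 1]` -/

lemma vecMul_zero_cons (d : ZMod M) (γ : SL(2, ℤ)) :
    (![0, d] : Fin 2 → ZMod M) ᵥ* (γ : Matrix (Fin 2) (Fin 2) (ZMod M))
      = ![d * ((γ 1 0 : ℤ) : ZMod M), d * ((γ 1 1 : ℤ) : ZMod M)] := by
  funext i
  fin_cases i <;> simp [vecMul, vecHead, vecTail]

/-- Limit at `i∞` of the `γ`-translate of `G 4 ![0, d]`. -/
theorem tendsto_G_zero_slash [NeZero M] (d : ZMod M) (γ : SL(2, ℤ)) :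
    Tendsto (G 4 (![0, d] : Fin 2 → ZMod M) ∣[(4 : ℤ)] γ) atImInfty
      (𝓝 (if d * ((γ 1 0 : ℤ) : ZMod M) = 0 then ((ZR (d * ((γ 1 1 : ℤ) : ZMod M)) : ℝ) : ℂ)
        else 0)) := by
  rw [G_slash, vecMul_zero_cons]
  simpa using tendsto_G_atImInfty (![d * ((γ 1 0 : ℤ) : ZMod M), d * ((γ 1 1 : ℤ) : ZMod M)])

/-- Limit at `i∞` of `G 4 ![0, d]`. -/
theorem tendsto_G_zero [NeZero M] (d : ZMod M) :
    Tendsto (G 4 (![0, d] : Fin 2 → ZMod M)) atImInfty (𝓝 ((ZR d : ℝ) : ℂ)) := by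
  simpa using tendsto_G_atImInfty (![0, d] : Fin 2 → ZMod M)

/-- **Separation.** The translate of `G 4 ![0, 1]` by `γ ∉ ±Γ₁(M)` has a limit at `i∞` different
from the limit of `G 4 ![0, 1]`. -/
theorem exists_tendsto_slash_ne [NeZero M] (γ : SL(2, ℤ))
    (hγ : ¬ (((γ 1 0 : ℤ) : ZMod M) = 0 ∧
      (((γ 1 1 : ℤ) : ZMod M) = 1 ∨ ((γ 1 1 : ℤ) : ZMod M) = -1))) :
    ∃ c' : ℂ, c' ≠ ((ZR (1 : ZMod M) : ℝ) : ℂ) ∧
      Tendsto (G 4 (![0, 1] : Fin 2 → ZMod M) ∣[(4 : ℤ)] γ) atImInfty (𝓝 c') := by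
  have h := tendsto_G_zero_slash (1 : ZMod M) γ
  simp only [one_mul] at h
  have hpos : 0 < ZR (1 : ZMod M) := lt_of_lt_of_le one_pos one_le_ZR_one
  by_cases hc : ((γ 1 0 : ℤ) : ZMod M) = 0
  · rw [if_pos hc] at h
    have hd1 : ((γ 1 1 : ℤ) : ZMod M) ≠ 1 := fun h1 => hγ ⟨hc, Or.inl h1⟩
    have hd2 : ((γ 1 1 : ℤ) : ZMod M) ≠ -1 := fun h1 => hγ ⟨hc, Or.inr h1⟩
    refine ⟨_, ?_, h⟩
    intro heq
    have := Complex.ofReal_injective heq
    exact (ZR_lt_ZR_one hd1 hd2).ne this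
  · rw [if_neg hc] at h
    refine ⟨0, ?_, h⟩
    intro heq
    have : (0 : ℝ) = ZR (1 : ZMod M) := Complex.ofReal_injective (by simpa using heq)
    exact hpos.ne this

end

end Fermat.Agent.S48.EisSep
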